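import Fermat.Agent.PisotCriterion.Criterion
import Fermat.Agent.SalemPowers.Conjugates
import Mathlib.Analysis.SpecialFunctions.Trigonometric.Complex
import Mathlib.Topology.Order.IntermediateValue

/-!
# Pisot numbers are limits of Salem numbers

Salem (1945): let `P` be the minimal polynomial of a Pisot number `θ` and `P*` its reverse. The
phase of `z ^ m P(z)` around the unit circle shows that `z ^ m P + P*` has all but two of its roots
there; if `P* θ ≠ 0` its real root tends to `θ`. If `θ` is a quadratic unit with trace `a`, the same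
holds for `(X² - a X + 1)(X ^ (2n) + 1) + X ^ (n + 1)`.
-/

set_option autoImplicit false

noncomputable section

open Filter Topology Finset Polynomial ComplexConjugate
open scoped Real

namespace FA.SalemLimits

open FA.SalemPowers (IsSalem)

/-- A monic polynomial with two real roots `τ ^ (± 1)` and the others on the unit circle. -/
theorem isSalem_of_roots {Q : ℤ[X]} (hQ : Q.Monic) {τ : ℝ} (hτ : 1 < τ) (h1 : aeval τ Q = 0)
    (h2 : aeval τ⁻¹ Q = 0) (S : Finset ℂ) (hS : ∀ z ∈ S, aeval z Q = 0 ∧ ‖z‖ = 1)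
    (hcard : Q.natDegree ≤ #S + 2) (hy : ∀ n : ℤ, τ + τ⁻¹ ≠ n) : IsSalem τ := by
  classical
  have hτ0 : 0 < τ := zero_lt_one.trans hτ
  have hint : IsIntegral ℤ τ := ⟨Q, hQ, h1⟩
  have hsmall : τ⁻¹ < 1 := inv_lt_one_of_one_lt₀ hτ
  have hc : ∀ x : ℝ, aeval x Q = 0 → aeval (x : ℂ) Q = 0 := fun x hx => by
    rw [show (x : ℂ) = algebraMap ℝ ℂ x from rfl, aeval_algebraMap_apply, hx, map_zero]
  have hne : (τ : ℂ) ≠ ((τ⁻¹ : ℝ) : ℂ) := fun e => by
    rw [Complex.ofReal_inj] at e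
    linarith
  have hQ0 : Q.map (algebraMap ℤ ℂ) ≠ 0 := (hQ.map _).ne_zero
  set R := (Q.aroots ℂ).toFinset with hR
  have hmem : ∀ z, z ∈ R ↔ aeval z Q = 0 := fun z => by
    rw [hR, Multiset.mem_toFinset, mem_aroots]
    exact and_iff_right hQ.ne_zero
  have hsub : {(τ : ℂ), ((τ⁻¹ : ℝ) : ℂ)} ∪ S ⊆ R := fun z hz => by
    simp only [mem_union, mem_insert, mem_singleton] at hz
    rcases hz with (rfl | rfl) | hz
    · exact (hmem _).2 (hc τ h1)
    · exact (hmem _).2 (hc _ h2)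
    · exact (hmem z).2 (hS z hz).1
  have hdis : Disjoint ({(τ : ℂ), ((τ⁻¹ : ℝ) : ℂ)} : Finset ℂ) S := disjoint_left.2 fun z hz hzS =>
    by
    have h3 := (hS z hzS).2
    simp only [mem_insert, mem_singleton] at hz
    rcases hz with rfl | rfl <;>
      rw [Complex.norm_real, Real.norm_of_nonneg (by positivity)] at h3 <;> linarith
  have hall : {(τ : ℂ), ((τ⁻¹ : ℝ) : ℂ)} ∪ S = R := eq_of_subset_of_card_le hsub (by
    rw [card_union_of_disjoint hdis, card_pair hne]
    refine (Multiset.toFinset_card_le _).trans ((card_roots' _).trans ?_)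
    exact natDegree_map_le.trans (by omega))
  have hdvd : minpoly ℤ τ ∣ Q := minpoly.isIntegrallyClosed_dvd hint h1
  have hroot : ∀ z : ℂ, aeval z (minpoly ℤ τ) = 0 →
      z = (τ : ℂ) ∨ z = ((τ⁻¹ : ℝ) : ℂ) ∨ ‖z‖ = 1 := fun z hz => by
    obtain ⟨q, hq⟩ := hdvd
    have hzR : z ∈ R := (hmem z).2 (by rw [hq, map_mul, hz, zero_mul])
    rw [← hall] at hzR
    simp only [mem_union, mem_insert, mem_singleton] at hzR
    rcases hzR with (h | h) | h
    · exact Or.inl h
    · exact Or.inr (Or.inl h)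
    · exact Or.inr (Or.inr (hS z h).2)
  refine ⟨hτ, hint, fun z hz hzne => ?_, ?_⟩
  · rcases hroot z hz with h | rfl | h
    · exact absurd h hzne
    · rw [Complex.norm_real, Real.norm_of_nonneg (by positivity)]
      exact hsmall.le
    · exact h.le
  by_contra hno
  push Not at hno
  set Rm := ((minpoly ℚ τ).aroots ℂ).toFinset with hRm
  have hmm : ∀ z, z ∈ Rm ↔ aeval z (minpoly ℤ τ) = 0 := fun z => by
    rw [hRm, Multiset.mem_toFinset, mem_aroots,
      minpoly.isIntegrallyClosed_eq_field_fractions' ℚ hint, aeval_map_algebraMap]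
    exact and_iff_right ((minpoly.monic hint).map _).ne_zero
  have hτm : (τ : ℂ) ∈ Rm := (hmm _).2 (by
    rw [show (τ : ℂ) = algebraMap ℝ ℂ τ from rfl, aeval_algebraMap_apply, minpoly.aeval, map_zero])
  have hsub2 : ∀ z ∈ Rm, z = (τ : ℂ) ∨ z = ((τ⁻¹ : ℝ) : ℂ) := fun z hz => by
    rcases hroot z ((hmm z).1 hz) with h | h | h
    · exact Or.inl h
    · exact Or.inr h
    · exact absurd h (hno z ((hmm z).1 hz))
  obtain ⟨m, hm⟩ := FA.SalemPowers.sum_pow_roots_int hint 1
  simp only [pow_one, ← hRm] at hm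
  by_cases hi : ((τ⁻¹ : ℝ) : ℂ) ∈ Rm
  · rw [show Rm = {(τ : ℂ), ((τ⁻¹ : ℝ) : ℂ)} from subset_antisymm
      (fun z hz => by simpa using hsub2 z hz)
      (insert_subset_iff.2 ⟨hτm, singleton_subset_iff.2 hi⟩), sum_pair hne,
      ← Complex.ofReal_add, ← Complex.ofReal_intCast, Complex.ofReal_inj] at hm
    exact hy m hm
  · rw [show Rm = {(τ : ℂ)} from eq_singleton_iff_unique_mem.2 ⟨hτm, fun z hz =>
      (hsub2 z hz).resolve_right fun e => hi (e ▸ hz)⟩, sum_singleton,
      ← Complex.ofReal_intCast, Complex.ofReal_inj] at hm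
    obtain ⟨k, hk⟩ := IsIntegrallyClosed.isIntegral_iff.1
      ((isIntegral_algebraMap_iff (A := ℚ) (B := ℝ) (algebraMap ℚ ℝ).injective (x := (m : ℚ)⁻¹)).1
        ⟨Q, hQ, by rw [← aeval_def]; simpa [hm] using h2⟩)
    rw [algebraMap_int_eq, eq_intCast] at hk
    have hk' : (k : ℝ) = τ⁻¹ := by
      rw [hm, ← Rat.cast_intCast k, hk, Rat.cast_inv, Rat.cast_intCast]
    have : (0 : ℝ) < k := hk' ▸ inv_pos.2 hτ0
    have : (k : ℝ) < ((1 : ℤ) : ℝ) := by push_cast; linarith
    rw [Int.cast_pos] at *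
    rw [Int.cast_lt] at this
    omega

/-- Near `θ` only `θ` itself can have an integer trace. -/
theorem eventually_trace_ne_int {θ : ℝ} (hθ : 1 < θ) :
    ∀ᶠ τ in 𝓝 θ, τ ≠ θ → ∀ n : ℤ, τ + τ⁻¹ ≠ n := by
  have hc : Tendsto (fun τ : ℝ => τ + τ⁻¹) (𝓝 θ) (𝓝 (θ + θ⁻¹)) :=
    tendsto_id.add (tendsto_inv₀ (by linarith))
  set y := θ + θ⁻¹ with hy
  by_cases hyi : (round y : ℝ) = y
  · filter_upwards [hc.eventually (Metric.ball_mem_nhds y one_pos), eventually_gt_nhds hθ]
      with τ hτ hτ1 hne n hn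
    rw [hn, ← hyi, Real.dist_eq, ← Int.cast_sub, ← Int.cast_abs, ← Int.cast_one,
      Int.cast_lt, abs_lt] at hτ
    have he : τ + τ⁻¹ = θ + θ⁻¹ := by
      rw [hn, show n = round y by omega, hyi]
    have h0 : τ ≠ 0 := by linarith
    have h0' : θ ≠ 0 := by linarith
    have : (τ - θ) * (τ * θ - 1) = 0 := by
      field_simp at he
      linear_combination he
    rcases mul_eq_zero.1 this with h | h
    · exact hne (sub_eq_zero.1 h)
    · nlinarith
  · have hd : 0 < |y - round y| := abs_pos.2 (sub_ne_zero.2 (Ne.symm hyi))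
    filter_upwards [hc.eventually (Metric.ball_mem_nhds y hd)] with τ hτ _ n hn
    rw [hn, Real.dist_eq, abs_sub_comm] at hτ
    exact absurd (round_le y n) (not_le.2 hτ)

/-- Sign changes of a continuous function give as many roots. -/
theorem exists_zeros_of_alternating {f : ℝ → ℝ} (hf : Continuous f) {K : ℕ} (p : ℕ → ℝ)
    (hp : ∀ k, k < K → p k < p (k + 1))
    (hs : ∀ k, k < K → f (p k) * f (p (k + 1)) < 0) :
    ∃ z : Fin K → ℝ, ∀ k : Fin K, z k ∈ Set.Ioo (p k) (p (k + 1)) ∧ f (z k) = 0 := by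
  choose z hz hz0 using fun k : Fin K => show ∃ c ∈ Set.Ioo (p k) (p (k + 1)), f c = 0 by
    have hlt := hp k k.2
    rcases mul_neg_iff.1 (hs k k.2) with ⟨h1, h2⟩ | ⟨h1, h2⟩
    · exact intermediate_value_Ioo' hlt.le hf.continuousOn ⟨h2, h1⟩
    · exact intermediate_value_Ioo hlt.le hf.continuousOn ⟨h1, h2⟩
  exact ⟨z, fun k => ⟨hz k, hz0 k⟩⟩

/-- The unit circle carries distinct images of distinct points of `[0, 2π)`. -/
theorem exp_mul_I_injOn :
    Set.InjOn (fun φ : ℝ => Complex.exp (φ * Complex.I)) (Set.Ico 0 (2 * π)) := by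
  intro a ha b hb h
  obtain ⟨n, hn⟩ := Complex.exp_eq_exp_iff_exists_int.1 h
  have h2 := congrArg Complex.im hn
  simp at h2
  have hlo : ((-1 : ℤ) : ℝ) < n := by
    push_cast
    nlinarith [Real.pi_pos, ha.1, hb.2]
  have hhi : (n : ℝ) < ((1 : ℤ) : ℝ) := by
    push_cast
    nlinarith [Real.pi_pos, hb.1, ha.2]
  rw [Int.cast_lt] at hlo hhi
  obtain rfl : n = 0 := by omega
  simpa using h2

/-- The polynomial for a quadratic unit. -/
def quadPoly (a : ℤ) (n : ℕ) : ℤ[X] :=
  (X ^ 2 - C a * X + 1) * (X ^ (2 * n) + 1) + X ^ (n + 1)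

theorem monic_quadPoly (a : ℤ) {n : ℕ} (hn : 0 < n) :
    (quadPoly a n).Monic ∧ (quadPoly a n).natDegree = 2 * n + 2 := by
  have h2 : (X ^ 2 - C a * X + 1 : ℤ[X]).Monic := by
    rw [show (X ^ 2 - C a * X + 1 : ℤ[X]) = X ^ 2 + (-C a * X + 1) by ring]
    refine monic_X_pow_add ((degree_add_le _ _).trans_lt (max_lt ?_ ?_))
    · rw [neg_mul, degree_neg]
      exact (degree_C_mul_X_le a).trans_lt (by exact_mod_cast one_lt_two)
    · exact degree_one_le.trans_lt (by exact_mod_cast two_pos)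
  have h2d : (X ^ 2 - C a * X + 1 : ℤ[X]).natDegree = 2 := by compute_degree!
  have h3 : (X ^ (2 * n) + 1 : ℤ[X]).Monic := monic_X_pow_add_C 1 (by omega)
  have h3d : (X ^ (2 * n) + 1 : ℤ[X]).natDegree = 2 * n := natDegree_X_pow_add_C
  have hd : ((X ^ 2 - C a * X + 1) * (X ^ (2 * n) + 1) : ℤ[X]).natDegree = 2 * n + 2 := by
    rw [h2.natDegree_mul h3, h2d, h3d, add_comm]
  have hlt : (X ^ (n + 1) : ℤ[X]).degree <
      ((X ^ 2 - C a * X + 1) * (X ^ (2 * n) + 1) : ℤ[X]).degree := by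
    rw [degree_X_pow, degree_eq_natDegree (h2.mul h3).ne_zero, hd]
    exact_mod_cast (by omega : n + 1 < 2 * n + 2)
  exact ⟨(h2.mul h3).add_of_left hlt, by
    rw [quadPoly, natDegree_add_eq_left_of_degree_lt hlt, hd]⟩

/-- **The case of a quadratic unit.** -/
theorem exists_isSalem_near_quadratic {θ : ℝ} (hθ : 1 < θ) {a : ℤ} (ha : θ + θ⁻¹ = a) {ε : ℝ}
    (hε : 0 < ε) : ∃ τ : ℝ, IsSalem τ ∧ |τ - θ| < ε := by
  classical
  have hπ := Real.pi_pos
  have h0 : 0 < θ := zero_lt_one.trans hθ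
  have hquad : θ ^ 2 - a * θ + 1 = 0 := by rw [← ha]; field_simp; ring
  have ha3 : (3 : ℝ) ≤ a := by
    have h2 : ((2 : ℤ) : ℝ) < a := by
      rw [← ha]
      push_cast
      nlinarith [mul_pos h0 (inv_pos.2 h0), mul_inv_cancel₀ h0.ne', sq_pos_of_pos (sub_pos.2 hθ)]
    rw [Int.cast_lt] at h2
    exact_mod_cast (show (3 : ℤ) ≤ a by omega)
  obtain ⟨r, hr, hball⟩ := Metric.mem_nhds_iff.1 (eventually_trace_ne_int hθ)
  obtain ⟨x₀, hx₀, hxθ⟩ := exists_between (max_lt (max_lt hθ (sub_lt_self θ hε)) (sub_lt_self θ hr))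
  simp only [max_lt_iff] at hx₀
  obtain ⟨⟨hx1, hxε⟩, hxr⟩ := hx₀
  have hc0 : x₀ ^ 2 - a * x₀ + 1 < 0 := by
    have h3 : x₀ ^ 2 - a * x₀ + 1 = (x₀ - θ) * (x₀ - θ⁻¹) := by
      rw [← ha]; field_simp; ring
    rw [h3]
    exact mul_neg_of_neg_of_pos (sub_neg.2 hxθ)
      (sub_pos.2 ((inv_lt_one_of_one_lt₀ hθ).trans hx1))
  obtain ⟨n, hn⟩ := pow_unbounded_of_one_lt (x₀ / -(x₀ ^ 2 - a * x₀ + 1)) hx1
  set N := n + 1 with hN
  have hev : ∀ x : ℝ, aeval x (quadPoly a N) =
      (x ^ 2 - a * x + 1) * (x ^ (2 * N) + 1) + x ^ (N + 1) := fun x => by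
    simp [quadPoly]
  have hevc : ∀ z : ℂ, aeval z (quadPoly a N) =
      (z ^ 2 - a * z + 1) * (z ^ (2 * N) + 1) + z ^ (N + 1) := fun z => by
    simp [quadPoly]
  have hlo : aeval x₀ (quadPoly a N) < 0 := by
    rw [hev]
    have h4 : x₀ < -(x₀ ^ 2 - a * x₀ + 1) * x₀ ^ N := by
      rw [div_lt_iff₀ (by linarith)] at hn
      refine hn.trans_le ?_
      rw [mul_comm]
      exact mul_le_mul_of_nonneg_left (pow_le_pow_right₀ hx1.le (Nat.le_succ n)) (by linarith)
    rw [two_mul, pow_add, pow_succ x₀ N]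
    have hp : 0 < x₀ ^ N := pow_pos (by linarith) N
    nlinarith [mul_lt_mul_of_pos_left h4 hp]
  have hhi : 0 < aeval θ (quadPoly a N) := by
    rw [hev, hquad, zero_mul, zero_add]
    positivity
  obtain ⟨τ, hτI, hτ0⟩ := intermediate_value_Ioo hxθ.le
    (f := fun x => aeval x (quadPoly a N)) (quadPoly a N).continuous_aeval.continuousOn ⟨hlo, hhi⟩
  have hτ1 : 1 < τ := hx1.trans hτI.1
  have hinv : aeval τ⁻¹ (quadPoly a N) = 0 := by
    rw [hev]
    simp only [hev] at hτ0
    have hτne : τ ≠ 0 := by linarith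
    simp only [inv_pow]
    field_simp
    ring_nf
    ring_nf at hτ0
    linear_combination τ ^ (N + 1) * hτ0
  set f : ℝ → ℝ := fun φ => (2 * Real.cos φ - a) * (2 * Real.cos (N * φ)) + 1 with hf
  have hsig : ∀ k : ℕ, f (k * π / N) * f ((k + 1 : ℕ) * π / N) < 0 := fun k => by
    have hval : ∀ j : ℕ, f (j * π / N) =
        (2 * Real.cos (j * π / N) - a) * (2 * (-1) ^ j) + 1 := fun j => by
      simp only [hf]
      rw [mul_div_cancel₀ _ (Nat.cast_ne_zero.2 (Nat.succ_ne_zero n)), Real.cos_nat_mul_pi]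
    rw [hval, hval, pow_succ]
    have b1 := Real.cos_le_one (k * π / N)
    have b2 := Real.cos_le_one ((k + 1 : ℕ) * π / N)
    rcases neg_one_pow_eq_or ℝ k with h | h <;> rw [h]
    · exact mul_neg_of_neg_of_pos (by linarith) (by linarith)
    · exact mul_neg_of_pos_of_neg (by linarith) (by linarith)
  obtain ⟨φ, hφ⟩ := exists_zeros_of_alternating (f := f) (by fun_prop) (K := 2 * N)
    (fun k => k * π / N) (fun k _ => by push_cast; gcongr; linarith) fun k _ => hsig k
  have hrange : ∀ k, φ k ∈ Set.Ico 0 (2 * π) := fun k => by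
    obtain ⟨⟨c1, c2⟩, -⟩ := hφ k
    refine ⟨le_of_lt (lt_of_le_of_lt (by positivity) c1), c2.trans_le ?_⟩
    rw [div_le_iff₀ (by positivity)]
    have : (((k : ℕ) + 1 : ℕ) : ℝ) ≤ ((2 * N : ℕ) : ℝ) := Nat.cast_le.2 k.2
    push_cast at this ⊢
    nlinarith
  have hmono : Function.Injective φ := fun i j hij => by
    by_contra hne
    wlog hlt : i < j generalizing i j
    · exact this j i hij.symm (Ne.symm hne) (lt_of_le_of_ne (not_lt.1 hlt) (Ne.symm hne))
    have h5 : (((i : ℕ) + 1 : ℕ) : ℝ) * π / N ≤ (j : ℕ) * π / N := by gcongr; exact hlt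
    linarith [(hφ i).1.2, (hφ j).1.1]
  refine ⟨τ, isSalem_of_roots (monic_quadPoly a (Nat.succ_pos n)).1 hτ1 hτ0 hinv
    (univ.image fun k => Complex.exp (φ k * Complex.I)) (fun z hz => ?_) ?_
    (hball ?_ hτI.2.ne), ?_⟩
  · obtain ⟨k, -, rfl⟩ := mem_image.1 hz
    refine ⟨?_, Complex.norm_exp_ofReal_mul_I _⟩
    set w := Complex.exp (φ k * Complex.I) with hw
    have hw0 : w ≠ 0 := Complex.exp_ne_zero _
    have ec : ((2 * Real.cos (φ k) : ℝ) : ℂ) = w + w⁻¹ := by
      rw [hw, ← Complex.exp_neg]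
      push_cast
      rw [Complex.two_cos, neg_mul]
    have ecn : ((2 * Real.cos (N * φ k) : ℝ) : ℂ) = w ^ N + (w ^ N)⁻¹ := by
      rw [hw, ← Complex.exp_nat_mul, ← Complex.exp_neg]
      push_cast
      rw [Complex.two_cos, ← mul_assoc (N : ℂ), neg_mul]
    have h6 : (w + w⁻¹ - a) * (w ^ N + (w ^ N)⁻¹) + 1 = 0 := by
      rw [← ec, ← ecn]
      exact_mod_cast (hφ k).2
    rw [hevc]
    field_simp at h6
    ring_nf at h6 ⊢
    linear_combination h6
  · rw [(monic_quadPoly a (Nat.succ_pos n)).2, card_image_of_injective, card_univ, Fintype.card_fin]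
    exact fun i j hij => hmono (exp_mul_I_injOn (hrange i) (hrange j) hij)
  · rw [Metric.mem_ball, Real.dist_eq, abs_lt]
    constructor <;> linarith [hτI.1, hτI.2]
  · rw [abs_lt]
    constructor <;> linarith [hτI.1, hτI.2]

/-- A continuous phase on the circle with winding `k`. -/
def HasPhase (f : ℝ → ℂ) (k : ℤ) : Prop :=
  ∃ ψ : ℝ → ℝ, Continuous ψ ∧ ψ (2 * π) = ψ 0 + 2 * π * k ∧
    ∀ φ, f φ = ‖f φ‖ * Complex.exp (ψ φ * Complex.I)

theorem hasPhase_one : HasPhase (fun _ => 1) 0 :=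
  ⟨fun _ => 0, continuous_const, by simp, fun φ => by simp⟩

theorem HasPhase.mul {f g : ℝ → ℂ} {j k : ℤ} (hf : HasPhase f j) (hg : HasPhase g k) :
    HasPhase (fun φ => f φ * g φ) (j + k) := by
  obtain ⟨ψ, hψ, hψ2, hψe⟩ := hf
  obtain ⟨χ, hχ, hχ2, hχe⟩ := hg
  refine ⟨fun φ => ψ φ + χ φ, hψ.add hχ, ?_, fun φ => ?_⟩
  · simp only [hψ2, hχ2]; push_cast; ring
  · simp only
    rw [norm_mul]
    conv_lhs => rw [hψe φ, hχe φ]
    push_cast
    rw [add_mul, Complex.exp_add]
    ring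

theorem continuous_arg_one_sub {u : ℝ → ℂ} (hu : Continuous u) (h : ∀ φ, ‖u φ‖ < 1) :
    Continuous fun φ => Complex.arg (1 - u φ) := by
  refine continuous_iff_continuousAt.2 fun φ => (Complex.continuousAt_arg ?_).comp
    (continuous_const.sub hu).continuousAt
  refine Complex.mem_slitPlane_iff.2 (Or.inl ?_)
  rw [Complex.sub_re, Complex.one_re, sub_pos]
  exact (Complex.re_le_norm _).trans_lt (h φ)

theorem hasPhase_inner {a : ℂ} (ha : ‖a‖ < 1) :
    HasPhase (fun φ => Complex.exp (φ * Complex.I) - a) 1 := by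
  set u : ℝ → ℂ := fun φ => a * Complex.exp ((-φ : ℝ) * Complex.I) with hu
  have hper : u (2 * π) = u 0 := by
    simp only [hu]
    congr 1
    refine Complex.exp_eq_exp_iff_exists_int.2 ⟨-1, ?_⟩
    push_cast
    ring
  refine ⟨fun φ => φ + Complex.arg (1 - u φ), continuous_id.add (continuous_arg_one_sub
    (by fun_prop) fun φ => by rwa [hu, norm_mul, Complex.norm_exp_ofReal_mul_I, mul_one]), ?_,
    fun φ => ?_⟩
  · simp only [hper]; push_cast; ring
  have e : Complex.exp (φ * Complex.I) - a = Complex.exp (φ * Complex.I) * (1 - u φ) := by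
    simp only [hu]
    rw [mul_sub, mul_one, mul_left_comm, ← Complex.exp_add]
    push_cast
    simp
  simp only
  rw [e, norm_mul, Complex.norm_exp_ofReal_mul_I, one_mul]
  conv_lhs => rw [← Complex.norm_mul_exp_arg_mul_I (1 - u φ)]
  push_cast
  rw [add_mul, Complex.exp_add]
  ring

theorem hasPhase_outer {θ : ℝ} (hθ : 1 < θ) :
    HasPhase (fun φ => Complex.exp (φ * Complex.I) - (θ : ℂ)) 0 := by
  have h0 : 0 < θ := zero_lt_one.trans hθ
  set u : ℝ → ℂ := fun φ => (θ⁻¹ : ℝ) * Complex.exp (φ * Complex.I) with hu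
  have hper : u (2 * π) = u 0 := by
    simp only [hu]
    congr 1
    refine Complex.exp_eq_exp_iff_exists_int.2 ⟨1, ?_⟩
    push_cast
    ring
  refine ⟨fun φ => π + Complex.arg (1 - u φ), continuous_const.add (continuous_arg_one_sub
    (by fun_prop) fun φ => by
      rw [hu, norm_mul, Complex.norm_exp_ofReal_mul_I, mul_one, Complex.norm_real,
        Real.norm_of_nonneg (by positivity)]
      exact inv_lt_one_of_one_lt₀ hθ), ?_, fun φ => ?_⟩
  · simp only [hper]; simp
  have e : Complex.exp (φ * Complex.I) - (θ : ℂ) = -(θ : ℂ) * (1 - u φ) := by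
    simp only [hu]
    have : (θ : ℂ) ≠ 0 := Complex.ofReal_ne_zero.2 h0.ne'
    push_cast
    field_simp
    ring
  simp only
  rw [e, norm_mul, norm_neg, Complex.norm_real, Real.norm_of_nonneg h0.le]
  conv_lhs => rw [← Complex.norm_mul_exp_arg_mul_I (1 - u φ)]
  push_cast
  rw [add_mul, Complex.exp_add, Complex.exp_pi_mul_I]
  ring

theorem hasPhase_prod_inner (s : Multiset ℂ) (hs : ∀ a ∈ s, ‖a‖ < 1) :
    HasPhase (fun φ => (s.map fun a => Complex.exp (φ * Complex.I) - a).prod)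
      (Multiset.card s) := by
  induction s using Multiset.induction with
  | empty => simpa using hasPhase_one
  | cons a s ih =>
    simp only [Multiset.map_cons, Multiset.prod_cons, Multiset.card_cons]
    rw [Nat.cast_succ, add_comm]
    exact (hasPhase_inner (hs a (Multiset.mem_cons_self a s))).mul
      (ih fun b hb => hs b (Multiset.mem_cons_of_mem hb))

theorem hasPhase_minpoly {θ : ℝ} (h : FA.PisotCriterion.IsPisot θ) :
    HasPhase (fun φ => aeval (Complex.exp (φ * Complex.I)) (minpoly ℤ θ))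
      ((minpoly ℤ θ).natDegree - 1 : ℤ) := by
  classical
  obtain ⟨h1, hint, hconj⟩ := h
  set P := minpoly ℤ θ with hP
  set Pc := P.map (algebraMap ℤ ℂ) with hPc
  have hmon : Pc.Monic := (minpoly.monic hint).map _
  have hsplit : Pc.Splits := IsAlgClosed.splits _
  have hsep : Pc.Separable := by
    rw [hPc, IsScalarTower.algebraMap_eq ℤ ℚ ℂ, ← Polynomial.map_map, hP,
      ← minpoly.isIntegrallyClosed_eq_field_fractions' ℚ hint]
    exact (minpoly.irreducible hint.tower_top).separable.map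
  have hθr : (θ : ℂ) ∈ Pc.roots := by
    rw [mem_roots', IsRoot, hPc, eval_map_algebraMap, show (θ : ℂ) = algebraMap ℝ ℂ θ from rfl,
      aeval_algebraMap_apply, hP, minpoly.aeval, map_zero]
    exact ⟨hmon.ne_zero, rfl⟩
  have hrest : ∀ a ∈ Pc.roots.erase (θ : ℂ), ‖a‖ < 1 := fun a ha => by
    obtain ⟨hne, ha'⟩ := (Multiset.Nodup.mem_erase_iff (nodup_roots hsep)).1 ha
    rw [mem_roots', IsRoot, hPc, eval_map_algebraMap] at ha'
    exact hconj a ha'.2 hne
  have hcard : (P.natDegree : ℤ) - 1 = 0 + (Multiset.card (Pc.roots.erase (θ : ℂ)) : ℤ) := by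
    have := Multiset.card_erase_add_one hθr
    rw [← hsplit.natDegree_eq_card_roots,
      show Pc.natDegree = P.natDegree from (minpoly.monic hint).natDegree_map _] at this
    omega
  have e : ∀ z : ℂ, aeval z P =
      (z - (θ : ℂ)) * ((Pc.roots.erase (θ : ℂ)).map fun a => z - a).prod := fun z => by
    rw [← Multiset.prod_cons, ← Multiset.map_cons (fun a => z - a), Multiset.cons_erase hθr,
      ← eval_map_algebraMap, ← hPc]
    conv_lhs => rw [hsplit.eq_prod_roots_of_monic hmon]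
    rw [eval_multiset_prod, Multiset.map_map]
    simp
  rw [hcard]
  simp only [e]
  exact (hasPhase_outer h1).mul (hasPhase_prod_inner _ hrest)

theorem aeval_reverse_eq {K : Type*} [Field K] [Algebra ℤ K] (P : ℤ[X]) {z : K} (hz : z ≠ 0) :
    aeval z P.reverse = z ^ P.natDegree * aeval z⁻¹ P := by
  have := invertibleOfNonzero (inv_ne_zero hz)
  have h := eval₂_reverse_mul_pow (algebraMap ℤ K) z⁻¹ P
  rw [invOf_eq_inv, inv_inv] at h
  rw [aeval_def, aeval_def, ← h, mul_comm, mul_assoc, ← mul_pow, inv_mul_cancel₀ hz, one_pow,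
    mul_one]

/-- The polynomial `X ^ m P + P*`. -/
def salemPoly (P : ℤ[X]) (m : ℕ) : ℤ[X] := X ^ m * P + P.reverse

theorem monic_salemPoly {P : ℤ[X]} (hP : P.Monic) {m : ℕ} (hm : 0 < m) :
    (salemPoly P m).Monic ∧ (salemPoly P m).natDegree = m + P.natDegree := by
  have hd : (X ^ m * P : ℤ[X]).natDegree = m + P.natDegree := by
    rw [(monic_X_pow m).natDegree_mul hP, natDegree_X_pow]
  have hlt : P.reverse.degree < (X ^ m * P : ℤ[X]).degree := by
    rw [degree_eq_natDegree ((monic_X_pow m).mul hP).ne_zero, hd]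
    refine degree_le_natDegree.trans_lt ?_
    exact_mod_cast (reverse_natDegree_le P).trans_lt (Nat.lt_add_of_pos_left hm)
  exact ⟨((monic_X_pow m).mul hP).add_of_left hlt, by
    rw [salemPoly, natDegree_add_eq_left_of_degree_lt hlt, hd]⟩

theorem exists_circle_roots {θ : ℝ} (h : FA.PisotCriterion.IsPisot θ) {m : ℕ}
    (hm : 2 ≤ m + (minpoly ℤ θ).natDegree) :
    ∃ S : Finset ℂ, (∀ z ∈ S, aeval z (salemPoly (minpoly ℤ θ) m) = 0 ∧ ‖z‖ = 1) ∧
      m + (minpoly ℤ θ).natDegree ≤ #S + 2 := by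
  classical
  have hπ := Real.pi_pos
  obtain ⟨ψ, hψ, hψ2, hψe⟩ := hasPhase_minpoly h
  simp only at hψe
  set P := minpoly ℤ θ
  set N := P.natDegree
  set M : ℕ := m + N - 2 with hM
  set Ψ : ℝ → ℝ := fun φ => ((m : ℝ) - N) * φ / 2 + ψ φ with hΨ
  have hΨc : Continuous Ψ := by fun_prop
  have hMR : (M : ℝ) = m + N - 2 := by
    rw [hM, Nat.cast_sub hm]; push_cast; ring
  have hΨ2 : Ψ (2 * π) = Ψ 0 + M * π := by
    simp only [hΨ, hψ2, hMR]; push_cast; ring
  set K₀ : ℤ := ⌈(Ψ 0 - π / 2) / π⌉ with hK₀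
  have hK₁ : Ψ 0 - π / 2 ≤ K₀ * π := by
    have := Int.le_ceil ((Ψ 0 - π / 2) / π)
    rwa [div_le_iff₀ hπ] at this
  have hK₂ : (K₀ : ℝ) * π < Ψ 0 - π / 2 + π := by
    have := mul_lt_mul_of_pos_right (Int.ceil_lt_add_one ((Ψ 0 - π / 2) / π)) hπ
    rwa [add_mul, one_mul, div_mul_cancel₀ _ hπ.ne'] at this
  set target : Fin M → ℝ := fun k => π / 2 + ((K₀ : ℝ) + (k : ℕ)) * π with htarget
  have hhit : ∀ k : Fin M, ∃ φ ∈ Set.Ico (0 : ℝ) (2 * π), Ψ φ = target k := fun k => by
    have hk : ((k : ℕ) : ℝ) * π + π ≤ M * π := by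
      have : (((k : ℕ) + 1 : ℕ) : ℝ) ≤ M := Nat.cast_le.2 k.2
      push_cast at this
      nlinarith
    refine intermediate_value_Ico (by positivity) hΨc.continuousOn ⟨?_, ?_⟩
    · simp only [htarget]
      nlinarith [mul_nonneg (Nat.cast_nonneg (α := ℝ) (k : ℕ)) hπ.le]
    · rw [hΨ2]
      simp only [htarget]
      nlinarith
  choose φ hφ hφΨ using hhit
  have hinj : Function.Injective φ := fun i j hij => by
    have h2 := hφΨ i
    rw [hij, hφΨ j] at h2
    simp only [htarget, add_right_inj, mul_eq_mul_right_iff, hπ.ne', or_false, add_right_inj,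
      Nat.cast_inj] at h2
    exact (Fin.ext h2).symm
  refine ⟨univ.image fun k => Complex.exp (φ k * Complex.I), fun z hz => ?_, ?_⟩
  · obtain ⟨k, -, rfl⟩ := mem_image.1 hz
    refine ⟨?_, Complex.norm_exp_ofReal_mul_I _⟩
    set w := Complex.exp (φ k * Complex.I) with hw
    have hw0 : w ≠ 0 := Complex.exp_ne_zero _
    have hwinv : w⁻¹ = conj w := by
      rw [Complex.inv_eq_conj (Complex.norm_exp_ofReal_mul_I _)]
    have hconjP : aeval w⁻¹ P = conj (aeval w P) := by
      rw [hwinv, show conj w = (Complex.conjAe.toAlgHom.restrictScalars ℤ) w from rfl,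
        aeval_algHom_apply]
      rfl
    rw [salemPoly, map_add, map_mul, map_pow, aeval_X, aeval_reverse_eq P hw0, hconjP, hψe (φ k),
      map_mul, Complex.conj_ofReal, ← Complex.exp_conj, map_mul, Complex.conj_ofReal,
      Complex.conj_I]
    have hcos : Real.cos (Ψ (φ k)) = 0 := by
      rw [hφΨ k, Real.cos_eq_zero_iff]
      exact ⟨K₀ + (k : ℕ), by simp only [htarget]; push_cast; ring⟩
    have e : ∀ c : ℂ, w ^ m * (c * Complex.exp (ψ (φ k) * Complex.I)) +
        w ^ N * (c * Complex.exp (ψ (φ k) * -Complex.I)) =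
        c * Complex.exp ((((m : ℝ) + N) * φ k / 2 : ℝ) * Complex.I) *
          (Complex.exp ((Ψ (φ k) : ℝ) * Complex.I) +
            Complex.exp (-((Ψ (φ k) : ℝ) : ℂ) * Complex.I)) := fun c => by
      rw [hw, ← Complex.exp_nat_mul, ← Complex.exp_nat_mul, mul_left_comm, mul_left_comm _ c,
        ← Complex.exp_add, ← Complex.exp_add, mul_add, mul_assoc c, ← Complex.exp_add, mul_assoc c,
        ← Complex.exp_add]
      simp only [hΨ]
      push_cast
      ring_nf
    rw [e, ← Complex.two_cos, ← Complex.ofReal_cos, hcos, Complex.ofReal_zero, mul_zero, mul_zero]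
  · rw [card_image_of_injective, card_univ, Fintype.card_fin]
    · omega
    · exact fun i j hij => hinj (exp_mul_I_injOn (hφ i) (hφ j) hij)

/-- **Salem's theorem.** -/
theorem exists_isSalem_near {θ : ℝ} (h : FA.PisotCriterion.IsPisot θ) {ε : ℝ} (hε : 0 < ε) :
    ∃ τ : ℝ, IsSalem τ ∧ |τ - θ| < ε := by
  classical
  have h' := h
  obtain ⟨h1, hint, hconj⟩ := h'
  have h0 : 0 < θ := zero_lt_one.trans h1
  set P := minpoly ℤ θ with hP
  have hPm : P.Monic := minpoly.monic hint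
  have hN : 0 < P.natDegree := minpoly.natDegree_pos hint
  by_cases hrev : aeval θ P.reverse = 0
  · -- a quadratic unit
    obtain ⟨q, hq⟩ := minpoly.isIntegrallyClosed_dvd hint hrev
    have hflip : ∀ z : ℂ, aeval z P = 0 → z ≠ 0 → aeval z⁻¹ P = 0 := fun z hz hz0 => by
      have h2 : aeval z P.reverse = 0 := by rw [hq, ← hP, map_mul, hz, zero_mul]
      rw [aeval_reverse_eq P hz0] at h2
      exact (mul_eq_zero.1 h2).resolve_left (pow_ne_zero _ hz0)
    set Rm := ((minpoly ℚ θ).aroots ℂ).toFinset with hRm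
    have hmm : ∀ z, z ∈ Rm ↔ aeval z P = 0 := fun z => by
      rw [hRm, Multiset.mem_toFinset, mem_aroots,
        minpoly.isIntegrallyClosed_eq_field_fractions' ℚ hint, aeval_map_algebraMap]
      exact and_iff_right (hPm.map _).ne_zero
    have hθc : aeval (θ : ℂ) P = 0 := by
      rw [show (θ : ℂ) = algebraMap ℝ ℂ θ from rfl, aeval_algebraMap_apply, hP, minpoly.aeval,
        map_zero]
    have hθ0 : (θ : ℂ) ≠ 0 := Complex.ofReal_ne_zero.2 h0.ne'
    have hR : Rm = {(θ : ℂ), (θ : ℂ)⁻¹} := by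
      ext z
      rw [hmm, mem_insert, mem_singleton]
      refine ⟨fun hz => ?_, ?_⟩
      · by_contra hcon
        rw [not_or] at hcon
        have hz0 : z ≠ 0 := by
          rintro rfl
          obtain ⟨R, hR⟩ := X_dvd_iff.2 (by
            rw [← coeff_zero_eq_aeval_zero'] at hz
            simpa using hz : P.coeff 0 = 0)
          have hirr : Irreducible P := minpoly.irreducible hint
          have hunit : IsUnit R :=
            (hirr.isUnit_or_isUnit hR).resolve_left not_isUnit_X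
          have h3 : aeval θ P = 0 := minpoly.aeval ℤ θ
          rw [hR, map_mul, aeval_X] at h3
          exact (hunit.map (aeval θ)).ne_zero ((mul_eq_zero.1 h3).resolve_left h0.ne')
        have hl := hconj z hz hcon.1
        have hl2 := hconj z⁻¹ (hflip z hz hz0) fun e => hcon.2 (by rw [← e, inv_inv])
        rw [norm_inv] at hl2
        exact absurd hl2 (not_lt.2 ((one_le_inv₀ (norm_pos_iff.2 hz0)).2 hl.le))
      · rintro (rfl | rfl)
        · exact hθc
        · exact hflip _ hθc hθ0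
    obtain ⟨a, ha⟩ := FA.SalemPowers.sum_pow_roots_int hint 1
    rw [← hRm, hR, sum_pair (fun e => by
      rw [← Complex.ofReal_inv, Complex.ofReal_inj] at e
      linarith [inv_lt_one_of_one_lt₀ h1])] at ha
    simp only [pow_one] at ha
    rw [← Complex.ofReal_inv, ← Complex.ofReal_add, ← Complex.ofReal_intCast,
      Complex.ofReal_inj] at ha
    exact exists_isSalem_near_quadratic h1 ha hε
  -- the general case
  obtain ⟨R, hR⟩ := dvd_iff_isRoot.2 (show IsRoot (P.map (algebraMap ℤ ℝ)) θ by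
    rw [IsRoot, eval_map_algebraMap, hP, minpoly.aeval])
  have hRθ : R.eval θ ≠ 0 := fun e => by
    have hsep : (P.map (algebraMap ℤ ℝ)).Separable := by
      rw [IsScalarTower.algebraMap_eq ℤ ℚ ℝ, ← Polynomial.map_map, hP,
        ← minpoly.isIntegrallyClosed_eq_field_fractions' ℚ hint]
      exact (minpoly.irreducible hint.tower_top).separable.map
    rw [hR] at hsep
    obtain ⟨T, hT⟩ := dvd_iff_isRoot.2 (show IsRoot R θ from e)
    exact not_isUnit_X_sub_C θ (hsep.squarefree _ ⟨T, by rw [hT, mul_assoc]⟩)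
  obtain ⟨r, hr, hball⟩ := Metric.mem_nhds_iff.1 ((eventually_trace_ne_int h1).and
    (R.continuous.continuousAt.eventually_ne hRθ))
  set δ : ℝ := min (min (ε / 2) (r / 2)) ((θ - 1) / 2) with hδ
  have hδ0 : 0 < δ := lt_min (lt_min (by linarith) (by linarith)) (by linarith)
  have hδε : δ < ε := ((min_le_left _ _).trans (min_le_left _ _)).trans_lt (by linarith)
  have hδr : δ < r := ((min_le_left _ _).trans (min_le_right _ _)).trans_lt (by linarith)
  have hδ1 : 1 < θ - δ := by linarith [min_le_right (min (ε / 2) (r / 2)) ((θ - 1) / 2)]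
  have hmemball : ∀ x : ℝ, |x - θ| ≤ δ → x ∈ Metric.ball θ r := fun x hx => by
    rw [Metric.mem_ball, Real.dist_eq]; linarith
  have hsign : aeval (θ - δ) P * aeval (θ + δ) P < 0 := by
    have e : ∀ x : ℝ, aeval x P = (x - θ) * R.eval x := fun x => by
      rw [← eval_map_algebraMap, hR, eval_mul, eval_sub, eval_X, eval_C]
    rw [e, e]
    have hpos : 0 < R.eval (θ - δ) * R.eval (θ + δ) := by
      by_contra hcon
      rw [not_lt] at hcon
      obtain ⟨x, hx, hx0⟩ : ∃ x ∈ Set.Icc (θ - δ) (θ + δ), R.eval x = 0 := by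
        rcases mul_nonpos_iff.1 hcon with ⟨u1, u2⟩ | ⟨u1, u2⟩
        · exact intermediate_value_Icc' (by linarith) R.continuous.continuousOn ⟨u2, u1⟩
        · exact intermediate_value_Icc (by linarith) R.continuous.continuousOn ⟨u1, u2⟩
      exact (hball (hmemball x (abs_le.2 ⟨by linarith [hx.1], by linarith [hx.2]⟩))).2 hx0
    nlinarith [mul_pos (mul_pos hδ0 hδ0) hpos]
  have hlim : ∀ x : ℝ, 1 < x →
      Tendsto (fun m : ℕ => aeval x (salemPoly P m) / x ^ m) atTop (𝓝 (aeval x P)) := fun x hx => by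
    have h2 : ∀ m : ℕ, aeval x (salemPoly P m) / x ^ m =
        aeval x P + aeval x P.reverse * (x⁻¹) ^ m := fun m => by
      rw [salemPoly, map_add, map_mul, map_pow, aeval_X, inv_pow]
      field_simp
    simp only [h2]
    simpa using ((tendsto_pow_atTop_nhds_zero_of_lt_one (by positivity)
      (inv_lt_one_of_one_lt₀ hx)).const_mul (aeval x P.reverse)).const_add (aeval x P)
  obtain ⟨m, hmneg, hm1⟩ := ((((hlim (θ - δ) hδ1).mul
    (hlim (θ + δ) (by linarith))).eventually_lt_const hsign).and (eventually_ge_atTop 2)).exists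
  have hQs : aeval (θ - δ) (salemPoly P m) * aeval (θ + δ) (salemPoly P m) < 0 := by
    rw [div_mul_div_comm, div_neg_iff] at hmneg
    rcases hmneg with ⟨-, u⟩ | ⟨u, -⟩
    · exact absurd u
        (not_lt.2 (mul_nonneg (pow_nonneg (by linarith) _) (pow_nonneg (by linarith) _)))
    · exact u
  obtain ⟨τ, hτI, hτ0⟩ : ∃ τ ∈ Set.Ioo (θ - δ) (θ + δ), aeval τ (salemPoly P m) = 0 := by
    rcases mul_neg_iff.1 hQs with ⟨u1, u2⟩ | ⟨u1, u2⟩
    · exact intermediate_value_Ioo' (f := fun x => aeval x (salemPoly P m)) (by linarith)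
        (salemPoly P m).continuous_aeval.continuousOn ⟨u2, u1⟩
    · exact intermediate_value_Ioo (f := fun x => aeval x (salemPoly P m)) (by linarith)
        (salemPoly P m).continuous_aeval.continuousOn ⟨u1, u2⟩
  have hτθ : τ ≠ θ := by
    rintro rfl
    rw [salemPoly, map_add, map_mul, hP, minpoly.aeval, mul_zero, zero_add] at hτ0
    exact hrev hτ0
  have hτ1 : 1 < τ := hδ1.trans hτI.1
  have hτne : τ ≠ 0 := by linarith
  have hinv : aeval τ⁻¹ (salemPoly P m) = 0 := by
    rw [salemPoly, map_add, map_mul, map_pow, aeval_X, aeval_reverse_eq P hτne] at hτ0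
    rw [salemPoly, map_add, map_mul, map_pow, aeval_X, aeval_reverse_eq P (inv_ne_zero hτne),
      inv_inv]
    have em : (τ⁻¹) ^ m * τ ^ m = 1 := by rw [← mul_pow, inv_mul_cancel₀ hτne, one_pow]
    have en : (τ⁻¹) ^ P.natDegree * τ ^ P.natDegree = 1 := by
      rw [← mul_pow, inv_mul_cancel₀ hτne, one_pow]
    linear_combination (τ⁻¹) ^ m * (τ⁻¹) ^ P.natDegree * hτ0 -
      (τ⁻¹) ^ m * aeval τ⁻¹ P * en - (τ⁻¹) ^ P.natDegree * aeval τ P * em
  obtain ⟨S, hS, hScard⟩ := exists_circle_roots h (m := m) (by omega)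
  obtain ⟨hmon, hdeg⟩ := monic_salemPoly hPm (m := m) (by omega)
  have habs : |τ - θ| < δ := abs_lt.2 ⟨by linarith [hτI.1], by linarith [hτI.2]⟩
  exact ⟨τ, isSalem_of_roots hmon hτ1 hτ0 hinv S hS (hdeg.trans_le hScard)
    ((hball (hmemball τ habs.le)).1 hτθ), habs.trans hδε⟩

end FA.SalemLimits
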